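/-
S41 / unit U7 (non-Eisenstein witness), part (b) (helper83): the group lemma.  Mathlib only.

Let `V` be a vector space over `ZMod p` with `p ^ 2` elements and `G` a group acting linearly
with no invariant proper nonzero subspace.  Then there are `g : G` and a PRIME `r` such that
`g ^ r` acts trivially on `V` and `g` fixes no nonzero vector.
-/
import Mathlib

set_option autoImplicit false

namespace Fermat.Agent.S41.H83

open Module

section Unipotent

variable {p : ℕ} [Fact p.Prime] {V : Type*} [AddCommGroup V] [Module (ZMod p) V]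

omit [AddCommGroup V] [Module (ZMod p) V] in
theorem finite_of_natCard_eq_sq (hcard : Nat.card V = p ^ 2) : Finite V :=
  Nat.finite_of_card_ne_zero (by
    rw [hcard]; exact pow_ne_zero 2 (Fact.out : p.Prime).ne_zero)

theorem finrank_eq_two_of_natCard (hcard : Nat.card V = p ^ 2) : finrank (ZMod p) V = 2 := by
  have _ : Finite V := finite_of_natCard_eq_sq hcard
  have h := Module.natCard_eq_pow_finrank (K := ZMod p) (V := V)
  rw [hcard, Nat.card_zmod] at h
  exact (Nat.pow_right_injective (Fact.out : p.Prime).two_le h).symm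

/-- An automorphism of determinant `1` of a plane over `ZMod p` with a nonzero fixed vector has
order dividing `p`. -/
theorem pow_prime_eq_one_of_det_of_fixed (hcard : Nat.card V = p ^ 2) (e : V ≃ₗ[ZMod p] V)
    (hdet : LinearEquiv.det e = 1) {v : V} (hv : v ≠ 0) (hev : e v = v) : e ^ p = 1 := by
  have _ : Finite V := finite_of_natCard_eq_sq hcard
  have hfr := finrank_eq_two_of_natCard hcard
  obtain ⟨w, hw⟩ := exists_linearIndependent_pair_of_one_lt_finrank (R := ZMod p)
    (by rw [hfr]; norm_num) hv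
  let b : Basis (Fin 2) (ZMod p) V :=
    basisOfLinearIndependentOfCardEqFinrank hw (by rw [hfr]; rfl)
  have hb : ⇑b = ![v, w] := coe_basisOfLinearIndependentOfCardEqFinrank hw _
  have hb0 : b 0 = v := by rw [hb]; rfl
  have hb1 : b 1 = w := by rw [hb]; rfl
  -- the matrix of `e`
  have hd : LinearMap.det (e : V →ₗ[ZMod p] V) = 1 := by
    rw [← LinearEquiv.coe_det, hdet]; rfl
  rw [← LinearMap.det_toMatrix b, Matrix.det_fin_two] at hd
  simp only [LinearMap.toMatrix_apply, LinearEquiv.coe_coe] at hd
  rw [hb0, hev, ← hb0, b.repr_self, Finsupp.single_eq_same,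
    Finsupp.single_eq_of_ne (by decide : (1 : Fin 2) ≠ 0), mul_zero, sub_zero, one_mul, hb1]
    at hd
  -- `e w = a • v + w`
  obtain ⟨a, hew⟩ : ∃ a : ZMod p, e w = a • v + w := by
    refine ⟨b.repr (e w) 0, ?_⟩
    have h := b.sum_repr (e w)
    rw [Fin.sum_univ_two, hd, one_smul, hb0, hb1] at h
    exact h.symm
  have hpowv : ∀ k : ℕ, (e ^ k) v = v := by
    intro k
    induction k with
    | zero => rfl
    | succ k ih => rw [pow_succ', LinearEquiv.mul_apply, ih, hev]
  have hpoww : ∀ k : ℕ, (e ^ k) w = ((k : ZMod p) * a) • v + w := by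
    intro k
    induction k with
    | zero => simp
    | succ k ih =>
      rw [pow_succ', LinearEquiv.mul_apply, ih, map_add, map_smul, hev, hew]
      push_cast
      module
  apply LinearEquiv.toLinearMap_injective
  apply b.ext
  intro i
  fin_cases i
  · show (e ^ p) (b 0) = b 0
    rw [hb0, hpowv]
  · show (e ^ p) (b 1) = b 1
    rw [hb1, hpoww, ZMod.natCast_self, zero_mul, zero_smul, zero_add]

end Unipotent

section Main

variable {p : ℕ} [Fact p.Prime] {V : Type*} [AddCommGroup V] [Module (ZMod p) V]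
  {G : Type*} [Group G] [DistribMulAction G V] [SMulCommClass G (ZMod p) V]

/-- **U7 (b), the group lemma.** A group acting irreducibly on a plane over `ZMod p` contains an
element `g` and a prime `r` such that `g ^ r` acts trivially and `g` fixes no nonzero vector. -/
theorem exists_prime_pow_trivial_no_fixed (hcard : Nat.card V = p ^ 2)
    (hirr : ∀ N : Submodule (ZMod p) V, (∀ g : G, ∀ x ∈ N, g • x ∈ N) → N = ⊥ ∨ N = ⊤) :
    ∃ (g : G) (r : ℕ), r.Prime ∧ (∀ v : V, g ^ r • v = v) ∧ ∀ v : V, g • v = v → v = 0 := by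
  classical
  have hpp : p.Prime := Fact.out
  have _ : Finite V := finite_of_natCard_eq_sq hcard
  have hfr := finrank_eq_two_of_natCard hcard
  let ρ : G →* (V ≃ₗ[ZMod p] V) := DistribMulAction.toModuleAut (ZMod p) V
  have hρ : ∀ (g : G) (v : V), ρ g v = g • v := fun g v => rfl
  have _ : Finite (V ≃ₗ[ZMod p] V) :=
    Finite.of_injective (fun e : V ≃ₗ[ZMod p] V => (e : V → V)) DFunLike.coe_injective
  let dt : (V ≃ₗ[ZMod p] V) →* (ZMod p)ˣ := LinearEquiv.det
  let N0 : Subgroup (V ≃ₗ[ZMod p] V) := ρ.range ⊓ dt.ker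
  by_cases hcase : ∃ r : ℕ, r.Prime ∧ r ≠ p ∧ r ∣ Nat.card N0
  · -- Case 1: an element of `N0` of prime order `r ≠ p`
    obtain ⟨r, hr, hrp, hrd⟩ := hcase
    have _ : Fact r.Prime := ⟨hr⟩
    obtain ⟨y, hy⟩ := exists_prime_orderOf_dvd_card' (G := N0) r hrd
    have hymem : (y : V ≃ₗ[ZMod p] V) ∈ N0 := y.2
    obtain ⟨g, hg⟩ : ∃ g, ρ g = (y : V ≃ₗ[ZMod p] V) := hymem.1
    have hdet : LinearEquiv.det (y : V ≃ₗ[ZMod p] V) = 1 := hymem.2
    have hyo : orderOf (y : V ≃ₗ[ZMod p] V) = r := by rw [Subgroup.orderOf_coe, hy]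
    refine ⟨g, r, hr, fun v => ?_, fun v hv => ?_⟩
    · rw [← hρ, map_pow, hg, ← hyo, pow_orderOf_eq_one]
      rfl
    · by_contra hv0
      have h1 : (y : V ≃ₗ[ZMod p] V) ^ p = 1 :=
        pow_prime_eq_one_of_det_of_fixed hcard _ hdet hv0 (by rw [← hg]; exact hv)
      have h2 : r ∣ p := by rw [← hyo]; exact orderOf_dvd_of_pow_eq_one h1
      exact hrp ((Nat.prime_dvd_prime_iff_eq hr hpp).mp h2)
  · -- Case 2: `N0` is a `p`-group
    have hN0card : Nat.card N0 = p ^ (Nat.card N0).primeFactorsList.length :=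
      Nat.eq_prime_pow_of_unique_prime_dvd Nat.card_pos.ne' (fun {d} hd hdvd => by
        by_contra h
        exact hcase ⟨d, hd, h, hdvd⟩)
    have hpg : IsPGroup p N0 := IsPGroup.of_card hN0card
    have h0fix : (0 : V) ∈ MulAction.fixedPoints N0 V := fun n => smul_zero n
    obtain ⟨b, hbfix, hb0⟩ := hpg.exists_fixed_point_of_prime_dvd_card_of_fixed_point (α := V)
      (by rw [hcard]; exact dvd_pow_self p two_ne_zero) h0fix
    -- the fixed space of `N0`
    let F : Submodule (ZMod p) V :=
      { carrier := {v | ∀ n ∈ N0, n v = v}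
        add_mem' := fun {a c} ha hc n hn => by rw [map_add, ha n hn, hc n hn]
        zero_mem' := fun n _ => map_zero n
        smul_mem' := fun c v hv n hn => by
          show n (c • v) = c • v
          rw [map_smul, hv n hn] }
    have hFstab : ∀ g : G, ∀ x ∈ F, g • x ∈ F := by
      intro g x hx n hn
      have hgr : ρ g ∈ ρ.range := ⟨g, rfl⟩
      have hmem : (ρ g)⁻¹ * n * ρ g ∈ N0 := by
        refine Subgroup.mem_inf.mpr
          ⟨ρ.range.mul_mem (ρ.range.mul_mem (ρ.range.inv_mem hgr) hn.1) hgr, ?_⟩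
        show dt ((ρ g)⁻¹ * n * ρ g) = 1
        have hn2 : dt n = 1 := hn.2
        rw [map_mul, map_mul, map_inv, hn2, mul_one, inv_mul_cancel]
      have h1 := hx _ hmem
      have h2 : n * ρ g = ρ g * ((ρ g)⁻¹ * n * ρ g) := by group
      show n (ρ g x) = ρ g x
      calc n (ρ g x) = (n * ρ g) x := rfl
        _ = (ρ g * ((ρ g)⁻¹ * n * ρ g)) x := by rw [h2]
        _ = ρ g (((ρ g)⁻¹ * n * ρ g) x) := rfl
        _ = ρ g x := by rw [h1]
    have hbF : b ∈ F := fun n hn => hbfix ⟨n, hn⟩
    have hFtop : F = ⊤ := by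
      rcases hirr F hFstab with h | h
      · exfalso
        rw [h, Submodule.mem_bot] at hbF
        exact hb0 hbF.symm
      · exact h
    have hN0triv : ∀ n ∈ N0, n = 1 := by
      intro n hn
      apply LinearEquiv.ext
      intro v
      have hv : v ∈ F := by rw [hFtop]; exact Submodule.mem_top
      exact hv n hn
    -- the image is commutative
    have hcomm : ∀ g g' : G, ρ g * ρ g' = ρ g' * ρ g := by
      intro g g'
      have hgr : ρ g ∈ ρ.range := ⟨g, rfl⟩
      have hgr' : ρ g' ∈ ρ.range := ⟨g', rfl⟩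
      have hmem : ρ g * ρ g' * (ρ g)⁻¹ * (ρ g')⁻¹ ∈ N0 := by
        refine Subgroup.mem_inf.mpr ⟨ρ.range.mul_mem (ρ.range.mul_mem (ρ.range.mul_mem hgr hgr')
          (ρ.range.inv_mem hgr)) (ρ.range.inv_mem hgr'), ?_⟩
        show dt (ρ g * ρ g' * (ρ g)⁻¹ * (ρ g')⁻¹) = 1
        rw [map_mul, map_mul, map_mul, map_inv, map_inv, mul_comm (dt (ρ g)),
          mul_inv_cancel_right, mul_inv_cancel]
      have h1 := hN0triv _ hmem
      calc ρ g * ρ g' = (ρ g * ρ g' * (ρ g)⁻¹ * (ρ g')⁻¹) * (ρ g' * ρ g) := by group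
        _ = ρ g' * ρ g := by rw [h1, one_mul]
    -- dichotomy for every element
    have hdich : ∀ g : G, (∀ v : V, g • v = v → v = 0) ∨ ∀ v : V, g • v = v := by
      intro g
      let Fg : Submodule (ZMod p) V :=
        { carrier := {v | g • v = v}
          add_mem' := fun {a c} ha hc => by
            show g • (a + c) = a + c
            rw [smul_add, ha, hc]
          zero_mem' := smul_zero g
          smul_mem' := fun c v hv => by
            show g • (c • v) = c • v
            rw [smul_comm, hv] }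
      have hstab : ∀ g' : G, ∀ x ∈ Fg, g' • x ∈ Fg := by
        intro g' x hx
        show g • (g' • x) = g' • x
        have h1 : g • (g' • x) = (ρ g * ρ g') x := rfl
        rw [h1, hcomm g g']
        show g' • (g • x) = g' • x
        rw [hx]
      rcases hirr Fg hstab with h | h
      · left
        intro v hv
        have : v ∈ Fg := hv
        rwa [h, Submodule.mem_bot] at this
      · right
        intro v
        have : v ∈ Fg := by rw [h]; exact Submodule.mem_top
        exact this
    -- some element acts nontrivially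
    have hnontriv : ∃ g₀ : G, ¬ ∀ v : V, g₀ • v = v := by
      by_contra hall0
      have hall : ∀ (g : G) (v : V), g • v = v := fun g => by
        by_contra h
        exact hall0 ⟨g, h⟩
      have hb0' : b ≠ 0 := fun h => hb0 h.symm
      rcases hirr (Submodule.span (ZMod p) {b}) (fun g x hx => by rw [hall g x]; exact hx)
        with h | h
      · have : b ∈ Submodule.span (ZMod p) {b} := Submodule.mem_span_singleton_self b
        rw [h, Submodule.mem_bot] at this
        exact hb0' this
      · have h1 := finrank_span_singleton (K := ZMod p) hb0'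
        rw [h, finrank_top, hfr] at h1
        norm_num at h1
    obtain ⟨g₀, hg₀⟩ := hnontriv
    have hγ : ρ g₀ ≠ 1 := by
      intro h
      apply hg₀
      intro v
      rw [← hρ, h]
      rfl
    have hm1 : orderOf (ρ g₀) ≠ 1 := fun h => hγ (orderOf_eq_one_iff.mp h)
    have hm0 : orderOf (ρ g₀) ≠ 0 := (orderOf_pos (ρ g₀)).ne'
    obtain ⟨r, hr, hrm⟩ := Nat.exists_prime_and_dvd hm1
    have hord : orderOf (ρ (g₀ ^ (orderOf (ρ g₀) / r))) = r := by
      rw [map_pow]
      exact orderOf_pow_orderOf_div hm0 hrm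
    refine ⟨g₀ ^ (orderOf (ρ g₀) / r), r, hr, fun v => ?_, ?_⟩
    · rw [← hρ, map_pow]
      have : ρ (g₀ ^ (orderOf (ρ g₀) / r)) ^ r = 1 := by
        have h := pow_orderOf_eq_one (ρ (g₀ ^ (orderOf (ρ g₀) / r)))
        rwa [hord] at h
      rw [this]
      rfl
    · rcases hdich (g₀ ^ (orderOf (ρ g₀) / r)) with h | h
      · exact h
      · exfalso
        have h1 : ρ (g₀ ^ (orderOf (ρ g₀) / r)) = 1 := by
          apply LinearEquiv.ext
          intro v
          rw [hρ, h v]
          rfl
        rw [h1, orderOf_one] at hord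
        exact hr.one_lt.ne hord

end Main

end Fermat.Agent.S41.H83
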