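/-
S41 / unit U7, leaf U7-GROUP (helper83): the statement `Fermat.Agent.S41.H2.GroupStatement` of the
landed assembly `Fermat.Agent.S41.H2.ne_witness_of`, from the group lemma
`exists_prime_pow_trivial_no_fixed` (prime order, i.e. exponent `a = 1`).
-/
import Fermat.Agent.S41.H2.NeAsm
import Fermat.Agent.S41.H83.GroupLemma

set_option autoImplicit false

namespace Fermat.Agent.S41.H83

/-- Leaf U7-GROUP, verbatim. -/
theorem group_leaf : Fermat.Agent.S41.H2.GroupStatement := by
  intro p _ V _ _ hcard G _ _ _ hirr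
  obtain ⟨g, r, hr, hpow, hfix⟩ := exists_prime_pow_trivial_no_fixed hcard hirr
  exact ⟨g, ⟨r, 1, hr, fun v => by rw [pow_one]; exact hpow v⟩, hfix⟩

end Fermat.Agent.S41.H83
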