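/-
S41, PAIR, projection formula in the coset model (helper83).

For subgroups `Γ' ≤ Γ` of `SL(2,ℤ)` the projection `π : SL(2,ℤ) ⧸ Γ' → SL(2,ℤ) ⧸ Γ` is equivariant.
Cocycles on `Cos Γ` pull back to cocycles on `Cos Γ'` (this is restriction of homomorphisms),
cocycles on `Cos Γ'` push forward (sum over the fibres of `π`) to cocycles on `Cos Γ` (this is
the transfer, see `CosTransfer.lean`), and a twisted cocycle `ζ'` over `(π^* c₁, c₂')` pushes
forward to a twisted cocycle over `(c₁, π_* c₂')` with the same total sum at every group element.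
Conventions of the landed `Fermat.Agent.S16.H97`:
`c (g * h) x = c g (h • x) + c h x`, and the twisted law is
`ζ (g * h) x = ζ g (h • x) + ζ h x + c₁ h x * c₂ g (h • x)`.
-/
import Mathlib
import Fermat.Agent.S16.H97.CocyclePair

set_option autoImplicit false

open scoped MatrixGroups
open ModularGroup
open Fermat.Agent.S16.H97

namespace Fermat.Agent.S41.H83

noncomputable section

variable {Γ' Γ : Subgroup SL(2, ℤ)}

/-- The projection `SL(2,ℤ) ⧸ Γ' → SL(2,ℤ) ⧸ Γ` for `Γ' ≤ Γ`. -/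
def cosProj (hle : Γ' ≤ Γ) : Cos Γ' → Cos Γ := Subgroup.quotientMapOfLE hle

theorem cosProj_mk (hle : Γ' ≤ Γ) (g : SL(2, ℤ)) :
    cosProj hle (QuotientGroup.mk g : Cos Γ') = (QuotientGroup.mk g : Cos Γ) := rfl

theorem cosProj_smul (hle : Γ' ≤ Γ) (g : SL(2, ℤ)) (x : Cos Γ') :
    cosProj hle (g • x) = g • cosProj hle x := by
  induction x using QuotientGroup.induction_on with
  | H a => rfl

theorem cosProj_base (hle : Γ' ≤ Γ) : cosProj hle (base Γ') = base Γ := rfl

theorem cosProj_surjective (hle : Γ' ≤ Γ) : Function.Surjective (cosProj hle) := by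
  intro x
  induction x using QuotientGroup.induction_on with
  | H a => exact ⟨QuotientGroup.mk a, rfl⟩

/-- A point of `Cos Γ'` lies over the base point of `Cos Γ` iff it is `r • base` with `r ∈ Γ`. -/
theorem cosProj_smul_base_eq_base_iff (hle : Γ' ≤ Γ) (r : SL(2, ℤ)) :
    cosProj hle (r • base Γ') = base Γ ↔ r ∈ Γ := by
  rw [cosProj_smul, cosProj_base]
  exact ⟨mem_of_smul_base, smul_base_of_mem⟩

section Defs

variable {A : Type*}

/-- Pull-back of a function on `SL(2,ℤ) × Cos Γ` along the projection. -/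
def pull (hle : Γ' ≤ Γ) (c : SL(2, ℤ) → Cos Γ → A) : SL(2, ℤ) → Cos Γ' → A :=
  fun g x' => c g (cosProj hle x')

theorem pull_apply (hle : Γ' ≤ Γ) (c : SL(2, ℤ) → Cos Γ → A) (g : SL(2, ℤ)) (x' : Cos Γ') :
    pull hle c g x' = c g (cosProj hle x') := rfl

open Classical in
/-- Push-forward (sum over the fibres of the projection). -/
def push [AddCommMonoid A] (hle : Γ' ≤ Γ) [Fintype (Cos Γ')] (f : SL(2, ℤ) → Cos Γ' → A) :
    SL(2, ℤ) → Cos Γ → A :=
  fun g x => ∑ x' with cosProj hle x' = x, f g x'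

open Classical in
theorem push_apply [AddCommMonoid A] (hle : Γ' ≤ Γ) [Fintype (Cos Γ')]
    (f : SL(2, ℤ) → Cos Γ' → A) (g : SL(2, ℤ)) (x : Cos Γ) :
    push hle f g x = ∑ x' with cosProj hle x' = x, f g x' := rfl

open Classical in
/-- `h` maps the fibre over `x` bijectively onto the fibre over `h • x`. -/
theorem sum_fibre_smul [AddCommMonoid A] (hle : Γ' ≤ Γ) [Fintype (Cos Γ')] (h : SL(2, ℤ))
    (x : Cos Γ) (F : Cos Γ' → A) :
    ∑ x' with cosProj hle x' = x, F (h • x') = ∑ y' with cosProj hle y' = h • x, F y' := by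
  refine Finset.sum_equiv (MulAction.toPerm h) ?_ ?_
  · intro x'
    simp only [Finset.mem_filter, Finset.mem_univ, true_and, MulAction.toPerm_apply,
      cosProj_smul]
    exact ⟨fun e => by rw [e], fun e => smul_left_cancel h e⟩
  · intro x' _
    rfl

/-- The total sum of a push-forward. -/
theorem sum_push [AddCommMonoid A] (hle : Γ' ≤ Γ) [Fintype (Cos Γ')] [Fintype (Cos Γ)]
    (f : SL(2, ℤ) → Cos Γ' → A) (g : SL(2, ℤ)) :
    ∑ x, push hle f g x = ∑ x', f g x' := by
  classical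
  simp only [push_apply]
  exact Finset.sum_fiberwise Finset.univ (cosProj hle) (f g)

end Defs

/-! ### Cocycles -/

section Coc

variable {A : Type*} [AddCommGroup A]

/-- The pull-back of a cocycle is a cocycle. -/
theorem pull_isCoc (hle : Γ' ≤ Γ) {c : SL(2, ℤ) → Cos Γ → A} (hc : IsCoc Γ c) :
    IsCoc Γ' (pull hle c) := by
  intro g h x
  simp only [pull_apply, cosProj_smul]
  exact hc g h _

/-- The homomorphism of the pull-back is the restriction. -/
theorem homOfCoc_pull (hle : Γ' ≤ Γ) {c : SL(2, ℤ) → Cos Γ → A} (hc : IsCoc Γ c) (γ : Γ') :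
    homOfCoc (pull hle c) (pull_isCoc hle hc) (Additive.ofMul γ) =
      homOfCoc c hc (Additive.ofMul (Subgroup.inclusion hle γ)) := rfl

/-- The pull-back of a cocycle vanishing at `g` vanishes at `g`. -/
theorem pull_eq_zero (hle : Γ' ≤ Γ) {c : SL(2, ℤ) → Cos Γ → A} {g : SL(2, ℤ)}
    (h : ∀ x, c g x = 0) (x' : Cos Γ') : pull hle c g x' = 0 := h _

/-- The push-forward of a cocycle is a cocycle. -/
theorem push_isCoc (hle : Γ' ≤ Γ) [Fintype (Cos Γ')] {c' : SL(2, ℤ) → Cos Γ' → A}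
    (hc' : IsCoc Γ' c') : IsCoc Γ (push hle c') := by
  classical
  intro g h x
  simp only [push_apply]
  rw [← sum_fibre_smul hle h x (c' g), ← Finset.sum_add_distrib]
  exact Finset.sum_congr rfl fun x' _ => hc' g h x'

/-- The value of the homomorphism of the push-forward: the sum over the fibre of the base
point. -/
theorem homOfCoc_push_apply (hle : Γ' ≤ Γ) [Fintype (Cos Γ')] {c' : SL(2, ℤ) → Cos Γ' → A}
    (hc' : IsCoc Γ' c') (γ : Γ) :
    homOfCoc (push hle c') (push_isCoc hle hc') (Additive.ofMul γ) =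
      push hle c' (γ : SL(2, ℤ)) (base Γ) := rfl

end Coc

/-! ### Twisted cocycles -/

section Tw

variable {A : Type*} [CommRing A]

/-- Twisted cocycles over a pair `(c₁, c₂)`:
`ζ (g * h) x = ζ g (h • x) + ζ h x + c₁ h x * c₂ g (h • x)`. -/
def IsTw (Γ : Subgroup SL(2, ℤ)) (c₁ c₂ ζ : SL(2, ℤ) → Cos Γ → A) : Prop :=
  ∀ g h x, ζ (g * h) x = ζ g (h • x) + ζ h x + c₁ h x * c₂ g (h • x)

/-- **Projection formula, cocycle level.**  If `ζ'` is twisted over `(π^* c₁, c₂')` on `Cos Γ'`,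
then its push-forward is twisted over `(c₁, π_* c₂')` on `Cos Γ`. -/
theorem push_isTw (hle : Γ' ≤ Γ) [Fintype (Cos Γ')] {c₁ : SL(2, ℤ) → Cos Γ → A}
    {c₂' ζ' : SL(2, ℤ) → Cos Γ' → A} (hζ' : IsTw Γ' (pull hle c₁) c₂' ζ') :
    IsTw Γ c₁ (push hle c₂') (push hle ζ') := by
  classical
  intro g h x
  simp only [push_apply]
  rw [← sum_fibre_smul hle h x (ζ' g), ← sum_fibre_smul hle h x (c₂' g), Finset.mul_sum,
    ← Finset.sum_add_distrib, ← Finset.sum_add_distrib]
  refine Finset.sum_congr rfl fun x' hx' => ?_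
  rw [hζ' g h x', pull_apply, (Finset.mem_filter.1 hx').2]

/-- **Projection formula, sums.**  The push-forward has the same total sum. -/
theorem sum_push_isTw (hle : Γ' ≤ Γ) [Fintype (Cos Γ')] [Fintype (Cos Γ)]
    (ζ' : SL(2, ℤ) → Cos Γ' → A) (g : SL(2, ℤ)) :
    ∑ x, push hle ζ' g x = ∑ x', ζ' g x' := sum_push hle ζ' g

end Tw

end

end Fermat.Agent.S41.H83
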