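/-
S41, PAIR, projection formula in the coset model, part 2 (helper83): the homomorphism of a
push-forward cocycle is the correspondence operator (transfer) of any system of right coset
representatives `Γ = ⊔ Γ' t_i`; and correspondence systems twisted by a conjugation
`θ : Γ₂ ≃* Γ₂'`, `D * θ g = g * D`.
-/
import Mathlib
import Fermat.Agent.S16.H97.CocyclePair
import Fermat.Agent.S41.H41.CorrSys
import Fermat.Agent.S41.H83.CosPush

set_option autoImplicit false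

open scoped MatrixGroups
open ModularGroup
open Fermat.Agent.S16.H97 Fermat.Agent.S16.H75 Fermat.Agent.S41.H41

namespace Fermat.Agent.S41.H83

noncomputable section

/-- Left cancellation of an integer matrix of nonzero determinant. -/
theorem mul_left_cancel_of_det_ne_zero' {A B M : Matrix (Fin 2) (Fin 2) ℤ} (hM : M.det ≠ 0)
    (h : M * A = M * B) : A = B := by
  have h1 : M.adjugate * (M * A) = M.adjugate * (M * B) := by rw [h]
  rw [← Matrix.mul_assoc, ← Matrix.mul_assoc, Matrix.adjugate_mul] at h1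
  ext i j
  have h2 := congrFun (congrFun h1 i) j
  simp only [Matrix.smul_mul, Matrix.one_mul, Matrix.smul_apply, smul_eq_mul] at h2
  exact mul_left_cancel₀ hM h2

/-- An identity of integer matrices between products of elements of subgroups of `SL(2,ℤ)` is an
identity in `SL(2,ℤ)`. -/
theorem sl_mul_eq_of_mat {Γ₁ Γ₂ Γ₃ Γ₄ : Subgroup SL(2, ℤ)} {a : Γ₁} {b : Γ₂} {c : Γ₃} {d : Γ₄}
    (h : mat a * mat b = mat c * mat d) :
    (a : SL(2, ℤ)) * (b : SL(2, ℤ)) = (c : SL(2, ℤ)) * (d : SL(2, ℤ)) := by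
  apply Subtype.ext
  simpa [mat] using h

section Transfer

variable {Γ' Γ : Subgroup SL(2, ℤ)} {A : Type*} [AddCommGroup A]
  {ι : Type*} {α : ι → Matrix (Fin 2) (Fin 2) ℤ}

/-- The point of the fibre over the base point attached to a representative. -/
def fibPt (Γ' : Subgroup SL(2, ℤ)) (t : ι → Γ) (i : ι) : Cos Γ' :=
  ((t i : SL(2, ℤ)))⁻¹ • base Γ'

theorem cosProj_fibPt (hle : Γ' ≤ Γ) (t : ι → Γ) (i : ι) :
    cosProj hle (fibPt Γ' t i) = base Γ :=
  (cosProj_smul_base_eq_base_iff hle _).2 (Γ.inv_mem (t i).2)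

theorem fibPt_injective (hsys : IsCorrSys Γ Γ' α) (t : ι → Γ) (hα : ∀ i, α i = mat (t i)) :
    Function.Injective (fibPt Γ' t) := by
  intro i j hij
  have h1 : ((t j : SL(2, ℤ)) * ((t i : SL(2, ℤ)))⁻¹) • base Γ' = base Γ' := by
    rw [mul_smul]
    change (t j : SL(2, ℤ)) • fibPt Γ' t i = _
    rw [hij]
    exact smul_inv_smul _ _
  have h2 := mem_of_smul_base h1
  refine (hsys.uniq j i ⟨_, h2⟩ ?_).symm
  rw [hα, hα]
  have e : (t j : SL(2, ℤ)) =
      ((t j : SL(2, ℤ)) * ((t i : SL(2, ℤ)))⁻¹) * (t i : SL(2, ℤ)) := by simp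
  have e2 := congrArg (fun g : SL(2, ℤ) => (g : Matrix (Fin 2) (Fin 2) ℤ)) e
  exact e2.trans (Matrix.SpecialLinearGroup.coe_mul _ _)

theorem fibPt_surjective (hle : Γ' ≤ Γ) [Nonempty ι] (hsys : IsCorrSys Γ Γ' α) (t : ι → Γ)
    (hα : ∀ i, α i = mat (t i)) (x' : Cos Γ') (hx' : cosProj hle x' = base Γ) :
    ∃ i, fibPt Γ' t i = x' := by
  induction x' using QuotientGroup.induction_on with
  | H a =>
    have ha : a ∈ Γ := by
      have : cosProj hle (a • base Γ') = base Γ := by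
        have e : (a • base Γ' : Cos Γ') = QuotientGroup.mk a := by
          change (QuotientGroup.mk (a * 1) : Cos Γ') = _
          rw [mul_one]
        rw [e]; exact hx'
      exact (cosProj_smul_base_eq_base_iff hle a).1 this
    obtain ⟨i0⟩ := ‹Nonempty ι›
    obtain ⟨i', γ', h⟩ := hsys.ex ((t i0)⁻¹ * ⟨a, ha⟩⁻¹) i0
    rw [hα, hα] at h
    have h2 := sl_mul_eq_of_mat h
    refine ⟨i', ?_⟩
    have h3 : a⁻¹ = (γ' : SL(2, ℤ)) * (t i' : SL(2, ℤ)) := by
      rw [← h2]; simp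
    have h4 : a = ((t i' : SL(2, ℤ)))⁻¹ * ((γ' : SL(2, ℤ)))⁻¹ := by
      rw [← inv_inv a, h3, mul_inv_rev]
    have e : (QuotientGroup.mk a : Cos Γ') = a • base Γ' := by
      change _ = (QuotientGroup.mk (a * 1) : Cos Γ')
      rw [mul_one]
    rw [e, h4, mul_smul, smul_base_of_mem (Γ'.inv_mem γ'.2)]
    rfl

open Classical in
/-- Sums over the fibre of the base point are sums over the representatives. -/
theorem sum_fibre_base (hle : Γ' ≤ Γ) [Fintype (Cos Γ')] [Fintype ι] [Nonempty ι]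
    (hsys : IsCorrSys Γ Γ' α) (t : ι → Γ) (hα : ∀ i, α i = mat (t i)) (F : Cos Γ' → A) :
    ∑ x' with cosProj hle x' = base Γ, F x' = ∑ i, F (fibPt Γ' t i) := by
  symm
  refine Finset.sum_bij (fun i _ => fibPt Γ' t i) ?_ ?_ ?_ ?_
  · intro i _
    simp only [Finset.mem_filter, Finset.mem_univ, true_and]
    exact cosProj_fibPt hle t i
  · intro i _ j _ hij
    exact fibPt_injective hsys t hα hij
  · intro x' hx'
    simp only [Finset.mem_filter, Finset.mem_univ, true_and] at hx'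
    obtain ⟨i, hi⟩ := fibPt_surjective hle hsys t hα x' hx'
    exact ⟨i, Finset.mem_univ _, hi⟩
  · intro i _
    rfl

/-- The value of a cocycle at `γ ∈ Γ` on a point of the fibre. -/
theorem coc_fibPt (hsys : IsCorrSys Γ Γ' α) (t : ι → Γ) (hα : ∀ i, α i = mat (t i))
    {c' : SL(2, ℤ) → Cos Γ' → A} (hc' : IsCoc Γ' c') (γ : Γ) (i : ι) :
    c' (γ : SL(2, ℤ)) (fibPt Γ' t (hsys.perm γ i)) =
      homOfCoc c' hc' (Additive.ofMul (hsys.coc γ i)) +
        c' ((t i : SL(2, ℤ)))⁻¹ (base Γ') -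
        c' ((t (hsys.perm γ i) : SL(2, ℤ)))⁻¹ (base Γ') := by
  have h := hsys.spec γ i
  rw [hα, hα] at h
  have h2 := sl_mul_eq_of_mat h
  set j := hsys.perm γ i with hj
  set g' := hsys.coc γ i with hg'
  have h3 : (γ : SL(2, ℤ)) = ((t i : SL(2, ℤ)))⁻¹ * (g' : SL(2, ℤ)) * (t j : SL(2, ℤ)) := by
    rw [mul_assoc, ← h2]; simp
  have e1 : (t j : SL(2, ℤ)) • fibPt Γ' t j = base Γ' := smul_inv_smul _ _
  have e2 : c' (t j : SL(2, ℤ)) (fibPt Γ' t j) = - c' ((t j : SL(2, ℤ)))⁻¹ (base Γ') := by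
    have := hc'.inv (t j : SL(2, ℤ)) (base Γ')
    rw [this]
    simp [fibPt]
  rw [homOfCoc_apply]
  conv_lhs => rw [h3]
  rw [hc', e1, hc', smul_base_of_mem g'.2, e2]
  abel

/-- **Transfer identification.**  For a system of right coset representatives `t i ∈ Γ` of
`Γ'` in `Γ`, the homomorphism of the push-forward of a cocycle `c'` is the correspondence
operator of the system applied to the homomorphism of `c'`. -/
theorem homOfCoc_push_eq_corrOp (hle : Γ' ≤ Γ) [Fintype (Cos Γ')] [Fintype ι] [Nonempty ι]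
    (hsys : IsCorrSys Γ Γ' α) (t : ι → Γ) (hα : ∀ i, α i = mat (t i))
    {c' : SL(2, ℤ) → Cos Γ' → A} (hc' : IsCoc Γ' c') :
    homOfCoc (push hle c') (push_isCoc hle hc') = hsys.corrOp (homOfCoc c' hc') := by
  classical
  refine AddMonoidHom.ext fun γa => ?_
  set γ : Γ := Additive.toMul γa with hγ
  change homOfCoc (push hle c') (push_isCoc hle hc') (Additive.ofMul γ) =
    hsys.corrOp (homOfCoc c' hc') (Additive.ofMul γ)
  rw [homOfCoc_push_apply hle hc' γ, push_apply, IsCorrSys.corrOp_apply,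
    sum_fibre_base hle hsys t hα (c' (γ : SL(2, ℤ))),
    ← Equiv.sum_comp (hsys.permEquiv γ) (fun j => c' (γ : SL(2, ℤ)) (fibPt Γ' t j))]
  simp only [IsCorrSys.permEquiv_apply, coc_fibPt hsys t hα hc', Finset.sum_add_distrib,
    Finset.sum_sub_distrib]
  have h2 : ∑ i, c' ((t (hsys.perm γ i) : SL(2, ℤ)))⁻¹ (base Γ') =
      ∑ i, c' ((t i : SL(2, ℤ)))⁻¹ (base Γ') :=
    Equiv.sum_comp (hsys.permEquiv γ) (fun i => c' ((t i : SL(2, ℤ)))⁻¹ (base Γ'))
  rw [h2, add_sub_cancel_right]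

end Transfer

/-! ### Systems twisted by a conjugation -/

section Conj

variable {Γ₁ Γ₂ Γ₂' : Subgroup SL(2, ℤ)} {ι : Type*} {α α' : ι → Matrix (Fin 2) (Fin 2) ℤ}

/-- If `α i = D * α' i` and `θ : Γ₂ ≃* Γ₂'` satisfies `D * θ g = g * D`, then `α'` is a
`(Γ₁, Γ₂')`-system as soon as `α` is a `(Γ₁, Γ₂)`-system. -/
theorem isCorrSys_of_conj (hsys : IsCorrSys Γ₁ Γ₂ α) (D : Matrix (Fin 2) (Fin 2) ℤ)
    (hD : D.det ≠ 0) (θ : Γ₂ ≃* Γ₂') (hθ : ∀ g : Γ₂, D * mat (θ g) = mat g * D)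
    (hα : ∀ i, α i = D * α' i) : IsCorrSys Γ₁ Γ₂' α' where
  det_ne i := by
    have := hsys.det_ne i
    rw [hα, Matrix.det_mul] at this
    exact right_ne_zero_of_mul this
  ex γ i := by
    obtain ⟨i', γ', h⟩ := hsys.ex γ i
    refine ⟨i', θ γ', mul_left_cancel_of_det_ne_zero' hD ?_⟩
    rw [← Matrix.mul_assoc, ← hα, h, hα, ← Matrix.mul_assoc, ← Matrix.mul_assoc, hθ]
  uniq i i' g hg := by
    refine hsys.uniq i i' (θ.symm g) ?_
    rw [hα, hα, hg, ← Matrix.mul_assoc, ← Matrix.mul_assoc, ← hθ, MulEquiv.apply_symm_apply]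

/-- The cocycle of the twisted system. -/
theorem coc_of_conj (hsys : IsCorrSys Γ₁ Γ₂ α) (hsys' : IsCorrSys Γ₁ Γ₂' α')
    (D : Matrix (Fin 2) (Fin 2) ℤ) (hD : D.det ≠ 0) (θ : Γ₂ ≃* Γ₂')
    (hθ : ∀ g : Γ₂, D * mat (θ g) = mat g * D) (hα : ∀ i, α i = D * α' i) (γ : Γ₁) (i : ι) :
    hsys'.perm γ i = hsys.perm γ i ∧ hsys'.coc γ i = θ (hsys.coc γ i) := by
  refine hsys'.unique (mul_left_cancel_of_det_ne_zero' hD ?_)
  rw [← Matrix.mul_assoc, ← hα, hsys.spec γ i, hα, ← Matrix.mul_assoc, ← Matrix.mul_assoc, hθ]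

/-- The operator of the twisted system: `corrOp' (u ∘ θ⁻¹) = corrOp u`. -/
theorem corrOp_of_conj [Fintype ι] {A : Type*} [AddCommGroup A] (hsys : IsCorrSys Γ₁ Γ₂ α)
    (hsys' : IsCorrSys Γ₁ Γ₂' α') (D : Matrix (Fin 2) (Fin 2) ℤ) (hD : D.det ≠ 0)
    (θ : Γ₂ ≃* Γ₂') (hθ : ∀ g : Γ₂, D * mat (θ g) = mat g * D) (hα : ∀ i, α i = D * α' i)
    (u : Additive Γ₂ →+ A) :
    hsys'.corrOp (u.comp (MonoidHom.toAdditive (θ.symm : Γ₂' →* Γ₂))) = hsys.corrOp u := by
  refine AddMonoidHom.ext fun γa => ?_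
  set γ : Γ₁ := Additive.toMul γa with hγ
  change hsys'.corrOp (u.comp (MonoidHom.toAdditive (θ.symm : Γ₂' →* Γ₂))) (Additive.ofMul γ) =
    hsys.corrOp u (Additive.ofMul γ)
  rw [IsCorrSys.corrOp_apply, IsCorrSys.corrOp_apply]
  refine Finset.sum_congr rfl fun i _ => ?_
  rw [(coc_of_conj hsys hsys' D hD θ hθ hα γ i).2]
  change u (Additive.ofMul (θ.symm (θ (hsys.coc γ i)))) = _
  rw [MulEquiv.symm_apply_apply]

end Conj

end

end Fermat.Agent.S41.H83
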