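/-
S41, PAIR-PROJ (helper83): the projection formula for the integral pairing `pairZ` of
`Fermat.Agent.S41.H33`, proved in the coset model.

For `Γ' ≤ Γ`, `φ` a parabolic homomorphism of `Γ`, `u` a parabolic homomorphism of `Γ'` and any
system `t i ∈ Γ` of right coset representatives of `Γ'` in `Γ`:
  `pairZ Γ' (φ|Γ') u = pairZ Γ φ (transfer u)`.
Proof: if `c₁` is a T-normal form of `φ` then its pull-back is a T-normal form of `φ|Γ'`; if
`(c₂', Q')` is a U-potential of `u` then the push-forwards (fibre sums) are a U-potential of the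
transfer of `u`; and `∑ x', P (π x') * Q' x' = ∑ x, P x * (π_* Q') x`.
-/
import Mathlib
import Fermat.Agent.S41.H33.Pairing
import Fermat.Agent.S41.H83.CosTransfer

set_option autoImplicit false

open scoped MatrixGroups
open ModularGroup ModularCurve.Period
open Fermat.Agent.S16.H97 Fermat.Agent.S16.H75 Fermat.Agent.S41.H41 Fermat.Agent.S41.H33

namespace Fermat.Agent.S41.H83

noncomputable section

variable {Γ' Γ : Subgroup SL(2, ℤ)}

open Classical in
/-- Push-forward of a function on `Cos Γ'`: the sum over the fibres. -/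
def pushFn {A : Type*} [AddCommMonoid A] (hle : Γ' ≤ Γ) [Fintype (Cos Γ')] (Q' : Cos Γ' → A) :
    Cos Γ → A :=
  fun x => ∑ x' with cosProj hle x' = x, Q' x'

open Classical in
theorem pushFn_apply {A : Type*} [AddCommMonoid A] (hle : Γ' ≤ Γ) [Fintype (Cos Γ')]
    (Q' : Cos Γ' → A) (x : Cos Γ) : pushFn hle Q' x = ∑ x' with cosProj hle x' = x, Q' x' := rfl

/-- If `c'` vanishes at `g`, so does its push-forward. -/
theorem push_eq_zero {A : Type*} [AddCommMonoid A] (hle : Γ' ≤ Γ) [Fintype (Cos Γ')]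
    {c' : SL(2, ℤ) → Cos Γ' → A} {g : SL(2, ℤ)} (h : c' g = 0) : push hle c' g = 0 := by
  classical
  funext x
  rw [push_apply, h]
  simp

/-- If `c' g x' = Q' (g • x') - Q' x'`, then `push c' g x = pushFn Q' (g • x) - pushFn Q' x`. -/
theorem push_eq_sub {A : Type*} [AddCommGroup A] (hle : Γ' ≤ Γ) [Fintype (Cos Γ')]
    {c' : SL(2, ℤ) → Cos Γ' → A} {g : SL(2, ℤ)} {Q' : Cos Γ' → A}
    (h : ∀ x', c' g x' = Q' (g • x') - Q' x') (x : Cos Γ) :
    push hle c' g x = pushFn hle Q' (g • x) - pushFn hle Q' x := by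
  classical
  rw [push_apply, pushFn_apply, pushFn_apply, ← sum_fibre_smul hle g x Q',
    ← Finset.sum_sub_distrib]
  exact Finset.sum_congr rfl fun x' _ => h x'

/-- The dot product of a pull-back with a function is the dot product with the push-forward. -/
theorem sum_pull_mul {A : Type*} [CommRing A] (hle : Γ' ≤ Γ) [Fintype (Cos Γ')]
    [Fintype (Cos Γ)] (P : Cos Γ → A) (Q' : Cos Γ' → A) :
    ∑ x', P (cosProj hle x') * Q' x' = ∑ x, P x * pushFn hle Q' x := by
  classical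
  rw [← Finset.sum_fiberwise Finset.univ (cosProj hle) (fun x' => P (cosProj hle x') * Q' x')]
  refine Finset.sum_congr rfl fun x _ => ?_
  rw [pushFn_apply, Finset.mul_sum]
  refine Finset.sum_congr rfl fun x' hx' => ?_
  rw [(Finset.mem_filter.1 hx').2]

/-- The restriction of a homomorphism of `Γ` to `Γ'`. -/
def resHom {A : Type*} [AddCommGroup A] (hle : Γ' ≤ Γ) (φ : Additive Γ →+ A) :
    Additive Γ' →+ A :=
  φ.comp (MonoidHom.toAdditive (Subgroup.inclusion hle))

theorem resHom_apply {A : Type*} [AddCommGroup A] (hle : Γ' ≤ Γ) (φ : Additive Γ →+ A)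
    (γ : Γ') : resHom hle φ (Additive.ofMul γ) = φ (Additive.ofMul (Subgroup.inclusion hle γ)) :=
  rfl

theorem isParabolicHom_resHom {A : Type*} [AddCommGroup A] (hle : Γ' ≤ Γ)
    {φ : Additive Γ →+ A} (hφ : IsParabolicHom Γ φ) : IsParabolicHom Γ' (resHom hle φ) :=
  fun γ hγ => hφ (Subgroup.inclusion hle γ) hγ

/-- The pull-back of a T-normal form is a T-normal form of the restriction. -/
theorem isTNorm_pull (hle : Γ' ≤ Γ) {φ : Additive Γ →+ ℤ} {P : Cos Γ → ℤ}
    (hP : IsTNorm Γ φ P) : IsTNorm Γ' (resHom hle φ) (fun x' => P (cosProj hle x')) := by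
  obtain ⟨c, hc, hT, rfl, rfl⟩ := hP
  refine ⟨pull hle c, pull_isCoc hle hc, ?_, ?_, rfl⟩
  · funext x'
    exact pull_eq_zero hle (fun x => congrFun hT x) x'
  · refine AddMonoidHom.ext fun γ => ?_
    rfl

/-- The push-forward of a U-potential is a U-potential of the transfer. -/
theorem isUPot_push (hle : Γ' ≤ Γ) [Fintype (Cos Γ')] {ι : Type*} [Fintype ι] [Nonempty ι]
    {α : ι → Matrix (Fin 2) (Fin 2) ℤ} (hsys : IsCorrSys Γ Γ' α) (t : ι → Γ)
    (hα : ∀ i, α i = mat (t i)) {u : Additive Γ' →+ ℤ} {Q' : Cos Γ' → ℤ}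
    (hQ' : IsUPot Γ' u Q') : IsUPot Γ (hsys.corrOp u) (pushFn hle Q') := by
  obtain ⟨c', hc', hU, hS, rfl⟩ := hQ'
  exact ⟨push hle c', push_isCoc hle hc', push_eq_zero hle hU, push_eq_sub hle hS,
    homOfCoc_push_eq_corrOp hle hsys t hα hc'⟩

/-- **PAIR-PROJ: the projection formula.**  For `Γ' ≤ Γ` (with `-1 ∈ Γ'`), a system `t i ∈ Γ`
of right coset representatives of `Γ'` in `Γ` (as a correspondence system), `φ` parabolic on `Γ`
and `u` parabolic on `Γ'` with parabolic transfer: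
`pairZ Γ' (φ|Γ') u = pairZ Γ φ (transfer u)`. -/
theorem pairZ_proj (hle : Γ' ≤ Γ) [Fintype (Cos Γ')] [Fintype (Cos Γ)]
    (hneg : (-1 : SL(2, ℤ)) ∈ Γ') {ι : Type*} [Fintype ι] [Nonempty ι]
    {α : ι → Matrix (Fin 2) (Fin 2) ℤ} (hsys : IsCorrSys Γ Γ' α) (t : ι → Γ)
    (hα : ∀ i, α i = mat (t i)) {φ : Additive Γ →+ ℤ} {u : Additive Γ' →+ ℤ}
    (hφ : IsParabolicHom Γ φ) (hu : IsParabolicHom Γ' u)
    (htr : IsParabolicHom Γ (hsys.corrOp u)) :
    pairZ Γ' (resHom hle φ) u = pairZ Γ φ (hsys.corrOp u) := by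
  have : Finite (Cos Γ') := Finite.of_fintype _
  have : Finite (Cos Γ) := Finite.of_fintype _
  obtain ⟨P, hP⟩ := exists_isTNorm φ hφ
  obtain ⟨Q', hQ'⟩ := exists_isUPot u
  rw [pairZ_eq_dot hneg (isParabolicHom_resHom hle hφ) hu (isTNorm_pull hle hP) hQ',
    pairZ_eq_dot (hle hneg) hφ htr hP (isUPot_push hle hsys t hα hQ')]
  exact sum_pull_mul hle P Q'

end

end Fermat.Agent.S41.H83
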