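/-
S41, PAIR (helper83): the two adjunction formulas (ADJ) for the integral pairing `pairZ` of
`Fermat.Agent.S41.H33` against the degeneracy maps `alpha1`, `alpha2` and the transfers `beta1`,
`beta2` of `Fermat.Agent.S41.H41`:

  `pairZ Γ₀(N q) (alpha_i x) u = pairZ Γ₀(N) x (beta_i u)`   (`i = 1, 2`).

`i = 1`: the projection formula `pairZ_proj` for `Γ₀(N q) ≤ Γ₀(N)`.
`i = 2`: conjugation invariance `H33.pairZ_conj` for `θ : Γ₀(N q) ≃* Γ₀(N) ∩ Γ⁰(q)`
(`H43.thetaMix`), then the projection formula for `Γ₀(N) ∩ Γ⁰(q) ≤ Γ₀(N)`.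
-/
import Mathlib
import Fermat.Agent.S41.H33.Conj
import Fermat.Agent.S41.H43.Mix
import Fermat.Agent.S41.H26.ParabolicU2
import Fermat.Agent.S41.H83.CosDot

set_option autoImplicit false

open CongruenceSubgroup
open scoped MatrixGroups
open ModularGroup ModularCurve.Period
open Fermat.Agent.S16.H97 Fermat.Agent.S16.H75 Fermat.Agent.S41.H41 Fermat.Agent.S41.H33
open Fermat.Agent.S41.H43 Fermat.Agent.S41.H26

namespace Fermat.Agent.S41.H83

noncomputable section

theorem neg_one_mem_Gamma0 (M : ℕ) : (-1 : SL(2, ℤ)) ∈ Gamma0 M := by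
  rw [mem_Gamma0_iff_dvd]
  simp

theorem Gamma0_mul_le_left (N q : ℕ) : Gamma0 (N * q) ≤ Gamma0 N :=
  fun _ hg => mem_Gamma0_of_mem_mul hg

/-- `alpha1` is the restriction. -/
theorem alpha1_eq_resHom (N q : ℕ) {A : Type*} [AddCommGroup A]
    (φ : Additive (Gamma0 N) →+ A) :
    alpha1 N q A φ = resHom (Gamma0_mul_le_left N q) φ := by
  refine AddMonoidHom.ext fun g => ?_
  exact alpha1_apply N q φ (Additive.toMul g)

/-- **(ADJ), `i = 1`.** -/
theorem pairZ_adj1 {N q : ℕ} (hq : q.Prime) (hqN : ¬ q ∣ N) [Fintype (Cos (Gamma0 N))]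
    [Fintype (Cos (Gamma0 (N * q)))] {x : Additive (Gamma0 N) →+ ℤ}
    {u : Additive (Gamma0 (N * q)) →+ ℤ} (hx : IsParabolicHom (Gamma0 N) x)
    (hu : IsParabolicHom (Gamma0 (N * q)) u) :
    pairZ (Gamma0 (N * q)) (alpha1 N q ℤ x) u = pairZ (Gamma0 N) x (beta1 N q ℤ u) := by
  have htr : IsParabolicHom (Gamma0 N) ((isCorrSys_t1 hq hqN).corrOp u) := by
    rw [← beta1_eq_t1 hq hqN ℤ]
    exact beta1_mem_parabolicHoms hq hqN hu
  rw [alpha1_eq_resHom, beta1_eq_t1 hq hqN ℤ]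
  exact pairZ_proj (Gamma0_mul_le_left N q) (neg_one_mem_Gamma0 _) (isCorrSys_t1 hq hqN)
    (t1 hq hqN) (fun _ => rfl) hx hu htr

/-- **(ADJ), `i = 2`.** -/
theorem pairZ_adj2 {N q : ℕ} (hq : q.Prime) (hqN : ¬ q ∣ N) [Fintype (Cos (Gamma0 N))]
    [Fintype (Cos (Gamma0 (N * q)))] {x : Additive (Gamma0 N) →+ ℤ}
    {u : Additive (Gamma0 (N * q)) →+ ℤ} (hx : IsParabolicHom (Gamma0 N) x)
    (hu : IsParabolicHom (Gamma0 (N * q)) u) :
    pairZ (Gamma0 (N * q)) (alpha2 N q ℤ x) u = pairZ (Gamma0 N) x (beta2 N q ℤ u) := by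
  have hN : N ≠ 0 := fun h => hqN (h ▸ dvd_zero q)
  have : NeZero N := ⟨hN⟩
  have : NeZero q := ⟨hq.ne_zero⟩
  have := finiteIndex_GammaMix N q
  let _ : Fintype (Cos (GammaMix N q)) := Subgroup.fintypeQuotientOfFiniteIndex
  have hD : 0 < (famDelta q ()).det := by
    have : (famDelta q ()).det = (q : ℤ) := by simp [famDelta, Matrix.det_fin_two_of]
    rw [this]
    exact_mod_cast hq.pos
  have H : ∀ γ : Gamma0 (N * q),
      famDelta q () * ((γ : SL(2, ℤ)) : Matrix (Fin 2) (Fin 2) ℤ) =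
        ((thetaMix N q hq.ne_zero γ : SL(2, ℤ)) : Matrix (Fin 2) (Fin 2) ℤ) * famDelta q () :=
    fun γ => thetaMix_spec hq.ne_zero γ
  -- the two classes on `GammaMix`
  have hxM : IsParabolicHom (GammaMix N q) (resHom (GammaMix_le N q) x) :=
    isParabolicHom_resHom _ hx
  have huM : IsParabolicHom (GammaMix N q) (pullHom (thetaMix N q hq.ne_zero).symm u) := by
    intro m hm
    rw [pullHom_apply]
    apply hu
    have e := H ((thetaMix N q hq.ne_zero).symm m)
    rw [MulEquiv.apply_symm_apply] at e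
    rw [trace_eq_of_intertwine hD.ne' e]
    exact hm
  have e1 : alpha2 N q ℤ x =
      pullHom (thetaMix N q hq.ne_zero) (resHom (GammaMix_le N q) x) := by
    rw [alpha2_eq_comp hq.ne_zero]
    rfl
  have e2 : u = pullHom (thetaMix N q hq.ne_zero)
      (pullHom (thetaMix N q hq.ne_zero).symm u) := by
    refine AddMonoidHom.ext fun g => ?_
    change u g = u (Additive.ofMul ((thetaMix N q hq.ne_zero).symm
      ((thetaMix N q hq.ne_zero) (Additive.toMul g))))
    rw [MulEquiv.symm_apply_apply]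
    rfl
  have e3 : beta2 N q ℤ u =
      (isCorrSys_mix hq hqN).corrOp (pullHom (thetaMix N q hq.ne_zero).symm u) :=
    beta2_eq_mix hq hqN u
  have htr : IsParabolicHom (Gamma0 N)
      ((isCorrSys_mix hq hqN).corrOp (pullHom (thetaMix N q hq.ne_zero).symm u)) := by
    rw [← e3]
    exact beta2_mem_parabolicHoms hq hqN hu
  calc pairZ (Gamma0 (N * q)) (alpha2 N q ℤ x) u
      = pairZ (Gamma0 (N * q)) (pullHom (thetaMix N q hq.ne_zero) (resHom (GammaMix_le N q) x))
          (pullHom (thetaMix N q hq.ne_zero)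
            (pullHom (thetaMix N q hq.ne_zero).symm u)) := by rw [← e1, ← e2]
    _ = pairZ (GammaMix N q) (resHom (GammaMix_le N q) x)
          (pullHom (thetaMix N q hq.ne_zero).symm u) :=
        pairZ_conj (neg_one_mem_Gamma0 _) (neg_one_mem_GammaMix N q) (thetaMix N q hq.ne_zero)
          hD H hxM huM
    _ = pairZ (Gamma0 N) x
          ((isCorrSys_mix hq hqN).corrOp (pullHom (thetaMix N q hq.ne_zero).symm u)) :=
        pairZ_proj (GammaMix_le N q) (neg_one_mem_GammaMix N q) (isCorrSys_mix hq hqN)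
          (t2 hq hqN) (fun _ => rfl) hx huM htr
    _ = pairZ (Gamma0 N) x (beta2 N q ℤ u) := by rw [← e3]

end

end Fermat.Agent.S41.H83
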